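import Fermat.Agent.S52.Fam.Cert

/-!
# S52 / B3n-fam: the `√5`-closed form of the Tate sections of the 5-congruent family (helper240)

Polynomial identities (valid in every commutative ring) for helper952's family data
`Fermat.Agent.S52.Fam`:

* `q5_closed` : with `s² = 5`:
    `2·c·q5 − (11 + 5s)·q5' = (2c − 11 − 5s)·(1 − (c² + 1 + 6cs)τ)⁵`
* `q2_closed` : `(1 − (c²+1+6cs)τ)(1 − (c²+1−6cs)τ) = q2 c τ`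
-/

set_option autoImplicit false

namespace Fermat.Agent.S52.B3.H240

open Fermat.Agent.S52.Fam

variable {R : Type*} [CommRing R]

theorem q5_closed (c τ s : R) (hs : s ^ 2 = 5) :
    2 * (c * q5 c τ) - (11 + 5 * s) * q5' c τ
      = (2 * c - (11 + 5 * s)) * (1 - (c ^ 2 + 1 + 6 * c * s) * τ) ^ 5 := by
  simp only [q5, q5', q5_0, q5_1, q5_2, q5_3, q5_4, q5_5, q5'_0, q5'_1, q5'_2, q5'_3, q5'_4,
    q5'_5]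
  linear_combination (-150*c*τ + 600*c*τ^2 - 900*c*τ^3 + 3960*c^2*τ^2 + 600*c*τ^4 + 1800*c^2*τ^2*s - 11880*c^2*τ^3 - 120*c^3*τ^2 - 150*c*τ^5 - 5400*c^2*τ^3*s + 11880*c^2*τ^4 - 53640*c^3*τ^3 + 5400*c^2*τ^4*s - 3960*c^2*τ^5 - 23760*c^3*τ^3*s + 107640*c^3*τ^4 - 11880*c^4*τ^3 - 1800*c^2*τ^5*s - 10800*c^3*τ^3*s^2 + 47520*c^3*τ^4*s - 53880*c^3*τ^5 - 1080*c^4*τ^3*s + 380160*c^4*τ^4 + 1260*c^5*τ^3 + 21600*c^3*τ^4*s^2 - 23760*c^3*τ^5*s + 164160*c^4*τ^4*s - 368280*c^4*τ^5 + 40680*c^5*τ^4 - 10800*c^3*τ^5*s^2 + 71280*c^4*τ^4*s^2 - 163080*c^4*τ^5*s + 47520*c^5*τ^4*s - 1013940*c^5*τ^5 + 11880*c^6*τ^4 + 32400*c^4*τ^4*s^3 - 71280*c^4*τ^5*s^2 + 8640*c^5*τ^4*s^2 - 475200*c^5*τ^5*s - 3240*c^6*τ^4*s - 368280*c^6*τ^5 - 1560*c^7*τ^4 - 32400*c^4*τ^5*s^3 - 203040*c^5*τ^5*s^2 - 81000*c^6*τ^5*s + 12360*c^7*τ^5 - 85536*c^5*τ^5*s^3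 - 71280*c^6*τ^5*s^2 - 23760*c^7*τ^5*s - 3960*c^8*τ^5 - 38880*c^5*τ^5*s^4 - 16848*c^6*τ^5*s^3 + 2160*c^7*τ^5*s^2 + 2520*c^8*τ^5*s + 570*c^9*τ^5) * hs

theorem q2_closed (c τ s : R) (hs : s ^ 2 = 5) :
    (1 - (c ^ 2 + 1 + 6 * c * s) * τ) * (1 - (c ^ 2 + 1 - 6 * c * s) * τ) = q2 c τ := by
  simp only [q2]
  linear_combination (-36 * c ^ 2 * τ ^ 2) * hs

end Fermat.Agent.S52.B3.H240
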