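import Mathlib.FieldTheory.Separable
import Mathlib.Tactic.LinearCombination
import Mathlib.Tactic.FieldSimp

/-!
# S52 / B3n-fam: an abstract separability lemma (helper240)

Let `L₊ = 1 − a₊X`, `L₋ = 1 − a₋X` with `a₊ ≠ a₋` over a field `K` with `2, 5 ≠ 0`, and let
`N, D ∈ K[X]` satisfy `2N − g₊D = κ₊L₊⁵`, `2N − g₋D = κ₋L₋⁵` with `g₊ ≠ g₋`, `g₊, g₋, κ₊, κ₋ ≠ 0`.
Then `N · D · L₊ · L₋` is separable (`separable_icosa`).
(The twelve roots are the vertices of an icosahedron in the coordinate `L₊/L₋`.)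
-/

set_option autoImplicit false

namespace Fermat.Agent.S52.B3.H240

open Polynomial

section ring

variable {A : Type*} [CommRing A]

/-- If two coprime elements lie in the ideal `(p, q)`, then `p` and `q` are coprime. -/
theorem isCoprime_of_combo {a b p q : A} (h : IsCoprime a b)
    (ha : ∃ u v : A, a = u * p + v * q) (hb : ∃ u v : A, b = u * p + v * q) :
    IsCoprime p q := by
  obtain ⟨x, y, hxy⟩ := h
  obtain ⟨u₁, v₁, rfl⟩ := ha
  obtain ⟨u₂, v₂, rfl⟩ := hb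
  exact ⟨x * u₁ + y * u₂, x * v₁ + y * v₂, by linear_combination hxy⟩

end ring

variable {K : Type*} [Field K]

theorem isUnit_C_of_ne {c : K} (hc : c ≠ 0) : IsUnit (C c : K[X]) :=
  isUnit_C.mpr (IsUnit.mk0 c hc)

/-- The linear polynomial `1 − aX`. -/
noncomputable def lin (a : K) : K[X] := 1 - C a * X

theorem derivative_lin (a : K) : derivative (lin a) = - C a := by
  simp [lin]

theorem separable_lin (a : K) : (lin a).Separable := by
  rw [separable_def', derivative_lin]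
  exact ⟨1, -X, by simp only [lin]; ring⟩

/-- the key relation `a·L_b − b·L_a = a − b`. -/
theorem lin_relation (a b : K) : C a * lin b - C b * lin a = C (a - b) := by
  simp only [lin, C_sub]
  ring

theorem isCoprime_lin {a b : K} (hab : a ≠ b) : IsCoprime (lin a) (lin b) := by
  have hd : a - b ≠ 0 := sub_ne_zero.mpr hab
  have hu : IsUnit (C (a - b) : K[X]) := isUnit_C_of_ne hd
  -- `(a−b) = a·L_b − b·L_a` is a unit in the ideal `(L_a, L_b)`
  obtain ⟨w, hw⟩ := hu.exists_left_inv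
  exact ⟨-(w * C b), w * C a, by linear_combination w * lin_relation a b + hw⟩

/-- `P = α L_a⁵ − β L_b⁵` with `α, β ≠ 0`, `a ≠ b`, `5 ≠ 0` is separable. -/
theorem separable_pow_five (h5 : (5 : K) ≠ 0) {a b α β : K} (hab : a ≠ b) (hα : α ≠ 0)
    (hβ : β ≠ 0) : (C α * lin a ^ 5 - C β * lin b ^ 5).Separable := by
  have hd : a - b ≠ 0 := sub_ne_zero.mpr hab
  set P : K[X] := C α * lin a ^ 5 - C β * lin b ^ 5 with hP
  set Q : K[X] := C α * C a * lin a ^ 4 - C β * C b * lin b ^ 4 with hQ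
  have hder : derivative P = C (-5) * Q := by
    rw [hP, hQ]
    have e5 : (C (5 : K) : K[X]) = 5 := map_ofNat C 5
    simp only [derivative_sub, derivative_mul, derivative_C, derivative_pow, derivative_lin,
      C_neg, Nat.cast_ofNat, Nat.add_one_sub_one, e5]
    ring
  have hrel := lin_relation a b
  have e1 : C β * C (a - b) * lin b ^ 4 = (-C a) * P + lin a * Q := by
    rw [hP, hQ]
    linear_combination (-(C β * lin b ^ 4)) * hrel
  have e2 : C α * C (a - b) * lin a ^ 4 = (-C b) * P + lin b * Q := by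
    rw [hP, hQ]
    linear_combination (-(C α * lin a ^ 4)) * hrel
  have hcop : IsCoprime (C α * C (a - b) * lin a ^ 4) (C β * C (a - b) * lin b ^ 4) := by
    have h0 : IsCoprime (lin a ^ 4) (lin b ^ 4) := (isCoprime_lin hab).pow
    have u1 : IsUnit (C α * C (a - b) : K[X]) := (isUnit_C_of_ne hα).mul (isUnit_C_of_ne hd)
    have u2 : IsUnit (C β * C (a - b) : K[X]) := (isUnit_C_of_ne hβ).mul (isUnit_C_of_ne hd)
    exact (isCoprime_mul_unit_left_left u1 _ _).mpr
      ((isCoprime_mul_unit_left_right u2 _ _).mpr h0)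
  have hPQ : IsCoprime P Q := isCoprime_of_combo hcop ⟨_, _, e2⟩ ⟨_, _, e1⟩
  rw [separable_def, hder]
  have u5 : IsUnit (C (-5) : K[X]) := isUnit_C_of_ne (neg_ne_zero.mpr h5)
  exact (isCoprime_mul_unit_left_right u5 _ _).mpr hPQ

/-- a unit multiple version -/
theorem separable_of_pow_five (h5 : (5 : K) ≠ 0) {a b α β γ : K} (hab : a ≠ b) (hα : α ≠ 0)
    (hβ : β ≠ 0) (_hγ : γ ≠ 0) {P : K[X]}
    (hP : C γ * P = C α * lin a ^ 5 - C β * lin b ^ 5) : P.Separable := by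
  have h := separable_pow_five h5 hab hα hβ
  rw [← hP] at h
  exact h.of_mul_right

/-- **Icosahedral separability.** -/
theorem separable_icosa (h2 : (2 : K) ≠ 0) (h5 : (5 : K) ≠ 0) {a b g₁ g₂ κ₁ κ₂ : K}
    (hab : a ≠ b) (hg : g₁ ≠ g₂) (hg₁ : g₁ ≠ 0) (hg₂ : g₂ ≠ 0) (hκ₁ : κ₁ ≠ 0) (hκ₂ : κ₂ ≠ 0)
    {N D : K[X]}
    (h₁ : C 2 * N - C g₁ * D = C κ₁ * lin a ^ 5)
    (h₂ : C 2 * N - C g₂ * D = C κ₂ * lin b ^ 5) :
    (N * D * lin a * lin b).Separable := by
  have hgd : g₂ - g₁ ≠ 0 := sub_ne_zero.mpr (Ne.symm hg)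
  -- `N` and `D` are combinations of `L_a⁵`, `L_b⁵`
  have hD : C (g₂ - g₁) * D = C κ₁ * lin a ^ 5 - C κ₂ * lin b ^ 5 := by
    simp only [C_sub]
    linear_combination h₁ - h₂
  have hN : C (2 * (g₂ - g₁)) * N = C (g₂ * κ₁) * lin a ^ 5 - C (g₁ * κ₂) * lin b ^ 5 := by
    simp only [C_sub, C_mul]
    linear_combination C g₂ * h₁ - C g₁ * h₂
  have sN : N.Separable :=
    separable_of_pow_five h5 hab (mul_ne_zero hg₂ hκ₁) (mul_ne_zero hg₁ hκ₂)
      (mul_ne_zero h2 hgd) hN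
  have sD : D.Separable := separable_of_pow_five h5 hab hκ₁ hκ₂ hgd hD
  -- coprimality
  have hL : IsCoprime (lin a) (lin b) := isCoprime_lin hab
  have hL5 : IsCoprime (C κ₁ * lin a ^ 5) (C κ₂ * lin b ^ 5) :=
    (isCoprime_mul_unit_left_left (isUnit_C_of_ne hκ₁) _ _).mpr
      ((isCoprime_mul_unit_left_right (isUnit_C_of_ne hκ₂) _ _).mpr hL.pow)
  have cND : IsCoprime N D :=
    isCoprime_of_combo hL5 ⟨C 2, -C g₁, by linear_combination -h₁⟩
      ⟨C 2, -C g₂, by linear_combination -h₂⟩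
  have cND' : IsCoprime N (C g₁ * D) :=
    (isCoprime_mul_unit_left_right (isUnit_C_of_ne hg₁) _ _).mpr cND
  have cND'' : IsCoprime N (C g₂ * D) :=
    (isCoprime_mul_unit_left_right (isUnit_C_of_ne hg₂) _ _).mpr cND
  have cN2D : IsCoprime (C 2 * N) D :=
    (isCoprime_mul_unit_left_left (isUnit_C_of_ne h2) _ _).mpr cND
  have cNa : IsCoprime N (lin a) :=
    isCoprime_of_combo cND' ⟨1, 0, by ring⟩
      ⟨C 2, -(C κ₁ * lin a ^ 4), by linear_combination -h₁⟩
  have cNb : IsCoprime N (lin b) :=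
    isCoprime_of_combo cND'' ⟨1, 0, by ring⟩
      ⟨C 2, -(C κ₂ * lin b ^ 4), by linear_combination -h₂⟩
  have cDa : IsCoprime D (lin a) :=
    isCoprime_of_combo cN2D.symm ⟨1, 0, by ring⟩
      ⟨C g₁, C κ₁ * lin a ^ 4, by linear_combination h₁⟩
  have cDb : IsCoprime D (lin b) :=
    isCoprime_of_combo cN2D.symm ⟨1, 0, by ring⟩
      ⟨C g₂, C κ₂ * lin b ^ 4, by linear_combination h₂⟩
  exact ((sN.mul sD cND).mul (separable_lin a) (cNa.mul_left cDa)).mul (separable_lin b)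
    ((cNb.mul_left cDb).mul_left hL)

end Fermat.Agent.S52.B3.H240
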