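import Fermat.Agent.S52.Fam.Syz
import Fermat.Agent.S52.H890.TateExists
import Fermat.Agent.S52.B3.H240.Closed
import Fermat.Agent.S52.B3.H240.Sep

/-!
# S52 / B3n-fam: the Klein form `Fk` of the 5-congruent family is separable (helper240)

`separable_Fk` : over an algebraically closed field of characteristic `0`, for `a³ ≠ b²`, the
polynomial `Fk (C a) (C b) X` (the Klein form of the family in the parameter `τ = X`) is separable.

Proof: Tate parameters `(c, λ)` (helper890), closed form `Fk = q5 · q5' · L₊ · L₋` (helper952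
`Fk_tate_one` + `q2_closed`), `2c·q5 − g±·q5' = κ±·L±⁵` (`q5_closed`), and the abstract lemma
`separable_icosa`.
-/

set_option autoImplicit false

namespace Fermat.Agent.S52.B3.H240

open Polynomial Fermat.Agent.S52.Fam

section naturality

variable {R S : Type*} [CommRing R] [CommRing S] (φ : R →+* S)

theorem map_tc4 (c : R) : φ (tc4 c) = tc4 (φ c) := by
  simp only [tc4, map_add, map_sub, map_mul, map_pow, map_ofNat, map_one]

theorem map_tc6 (c : R) : φ (tc6 c) = tc6 (φ c) := by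
  simp only [tc6, map_add, map_sub, map_neg, map_mul, map_pow, map_ofNat, map_one]

theorem map_Fk (a b t : R) : φ (Fk a b t) = Fk (φ a) (φ b) (φ t) := by
  simp only [Fk, Fk_0, Fk_2, Fk_3, Fk_4, Fk_5, Fk_6, Fk_7, Fk_8, Fk_9, Fk_10, Fk_11, Fk_12,
    map_add, map_sub, map_neg, map_mul, map_pow, map_ofNat, map_one]

theorem map_C4 (a b t : R) : φ (C4 a b t) = C4 (φ a) (φ b) (φ t) := by
  simp only [C4, C4_0, C4_1, C4_2, C4_3, C4_4, C4_5, C4_6, C4_7, C4_8, C4_9, C4_10, C4_11,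
    C4_12, C4_13, C4_14, C4_15, C4_16, C4_17, C4_18, C4_19, C4_20,
    map_add, map_sub, map_neg, map_mul, map_pow, map_ofNat]

theorem map_C6 (a b t : R) : φ (C6 a b t) = C6 (φ a) (φ b) (φ t) := by
  simp only [C6, C6_0, C6_1, C6_2, C6_3, C6_4, C6_5, C6_6, C6_7, C6_8, C6_9, C6_10, C6_11,
    C6_12, C6_13, C6_14, C6_15, C6_16, C6_17, C6_18, C6_19, C6_20, C6_21, C6_22, C6_23, C6_24,
    C6_25, C6_26, C6_27, C6_28, C6_29, C6_30,
    map_add, map_sub, map_neg, map_mul, map_pow, map_ofNat]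

end naturality

section closed

variable {K : Type*} [Field K]

theorem tc4_eq_H5 (c : K) : Fermat.Agent.S52.H890.H5 c 1 = tc4 c := by
  simp only [Fermat.Agent.S52.H890.H5, tc4]; ring

theorem tc6_eq_T5 (c : K) : Fermat.Agent.S52.H890.T5 c 1 = tc6 c := by
  simp only [Fermat.Agent.S52.H890.T5, tc6]; ring

/-- **Separability of the Klein form in Tate coordinates.** -/
theorem separable_Fk_tate (h2 : (2 : K) ≠ 0) (h3 : (3 : K) ≠ 0) (h5 : (5 : K) ≠ 0)
    {c lam s : K} (hlam : lam ≠ 0) (hc : c ≠ 0) (hcc : c ^ 2 - 11 * c - 1 ≠ 0) (hs : s ^ 2 = 5) :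
    (Fk (C (lam ^ 4 * tc4 c)) (C (lam ^ 6 * tc6 c)) (X : K[X])).Separable := by
  have hs0 : s ≠ 0 := by
    rintro rfl
    have : (0 : K) = 5 := by simpa using hs
    exact h5 this.symm
  -- the variable `τ = λ² X` and the constants
  set τ : K[X] := C (lam ^ 2) * X with hτ
  set a₁ : K := (c ^ 2 + 1 + 6 * c * s) * lam ^ 2 with ha₁
  set a₂ : K := (c ^ 2 + 1 - 6 * c * s) * lam ^ 2 with ha₂
  have hCs : (C s : K[X]) ^ 2 = 5 := by
    rw [← C_pow, hs]; exact map_ofNat C 5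
  have hCs' : (C (-s) : K[X]) ^ 2 = 5 := by
    rw [← C_pow, neg_sq, hs]; exact map_ofNat C 5
  have e2 : (C (2 : K) : K[X]) = 2 := map_ofNat C 2
  have e5 : (C (5 : K) : K[X]) = 5 := map_ofNat C 5
  have e6 : (C (6 : K) : K[X]) = 6 := map_ofNat C 6
  have e11 : (C (11 : K) : K[X]) = 11 := map_ofNat C 11
  have hL₁ : lin a₁ = 1 - (C c ^ 2 + 1 + 6 * C c * C s) * τ := by
    simp only [lin, ha₁, hτ, C_mul, C_add, C_pow, C_1, e6]
    ring
  have hL₂ : lin a₂ = 1 - (C c ^ 2 + 1 + 6 * C c * C (-s)) * τ := by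
    simp only [lin, ha₂, hτ, C_mul, C_add, C_sub, C_pow, C_1, C_neg, e6]
    ring
  have hL₂' : lin a₂ = 1 - (C c ^ 2 + 1 - 6 * C c * C s) * τ := by
    rw [hL₂, C_neg]; ring
  -- the Klein form in closed form
  have hF : Fk (C (lam ^ 4 * tc4 c)) (C (lam ^ 6 * tc6 c)) (X : K[X])
      = q5 (C c) τ * q5' (C c) τ * (lin a₁ * lin a₂) := by
    have h1 : (C (lam ^ 4 * tc4 c) : K[X]) = C lam ^ 4 * tc4 (C c) := by
      rw [C_mul, C_pow, map_tc4 (C : K →+* K[X])]
    have h2' : (C (lam ^ 6 * tc6 c) : K[X]) = C lam ^ 6 * tc6 (C c) := by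
      rw [C_mul, C_pow, map_tc6 (C : K →+* K[X])]
    rw [h1, h2', Fk_weight, Fk_tate_one, ← q2_closed (C c) _ (C s) hCs, hL₁, hL₂', hτ, C_pow]
  -- the two fifth-power relations
  have r₁ : C 2 * (C c * q5 (C c) τ) - C (11 + 5 * s) * q5' (C c) τ
      = C (2 * c - (11 + 5 * s)) * lin a₁ ^ 5 := by
    have := q5_closed (C c) τ (C s) hCs
    rw [hL₁]
    simp only [C_mul, C_add, C_sub, e2, e5, e11]
    linear_combination this
  have r₂ : C 2 * (C c * q5 (C c) τ) - C (11 - 5 * s) * q5' (C c) τ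
      = C (2 * c - (11 - 5 * s)) * lin a₂ ^ 5 := by
    have := q5_closed (C c) τ (C (-s)) hCs'
    rw [hL₂]
    simp only [C_mul, C_sub, C_neg, e2, e5, e11] at this ⊢
    linear_combination this
  -- nonvanishing of the constants
  have h12 : (12 : K) ≠ 0 := by
    have : (12 : K) = 2 ^ 2 * 3 := by norm_num
    rw [this]; exact mul_ne_zero (pow_ne_zero _ h2) h3
  have h10 : (10 : K) ≠ 0 := by
    have : (10 : K) = 2 * 5 := by norm_num
    rw [this]; exact mul_ne_zero h2 h5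
  have h4 : (4 : K) ≠ 0 := by
    have : (4 : K) = 2 ^ 2 := by norm_num
    rw [this]; exact pow_ne_zero _ h2
  have hab : a₁ ≠ a₂ := by
    intro h
    have : a₁ - a₂ = 12 * c * s * lam ^ 2 := by rw [ha₁, ha₂]; ring
    rw [h, sub_self] at this
    exact (mul_ne_zero (mul_ne_zero (mul_ne_zero h12 hc) hs0) (pow_ne_zero _ hlam)) this.symm
  have hg : (11 + 5 * s) ≠ (11 - 5 * s) := by
    intro h
    have : 10 * s = 0 := by linear_combination h
    exact (mul_ne_zero h10 hs0) this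
  have hgg : (11 + 5 * s) * (11 - 5 * s) = -4 := by linear_combination (-25 : K) * hs
  have hg₁ : (11 + 5 * s) ≠ 0 := by
    intro h; rw [h, zero_mul] at hgg; exact (neg_ne_zero.mpr h4) hgg.symm
  have hg₂ : (11 - 5 * s) ≠ 0 := by
    intro h; rw [h, mul_zero] at hgg; exact (neg_ne_zero.mpr h4) hgg.symm
  have hκκ : (2 * c - (11 + 5 * s)) * (2 * c - (11 - 5 * s)) = 4 * (c ^ 2 - 11 * c - 1) := by
    linear_combination (-25 : K) * hs
  have hκ₁ : (2 * c - (11 + 5 * s)) ≠ 0 := by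
    intro h; rw [h, zero_mul] at hκκ; exact (mul_ne_zero h4 hcc) hκκ.symm
  have hκ₂ : (2 * c - (11 - 5 * s)) ≠ 0 := by
    intro h; rw [h, mul_zero] at hκκ; exact (mul_ne_zero h4 hcc) hκκ.symm
  have key := separable_icosa h2 h5 hab hg hg₁ hg₂ hκ₁ hκ₂ r₁ r₂
  have hfac : C c * q5 (C c) τ * q5' (C c) τ * lin a₁ * lin a₂
      = C c * Fk (C (lam ^ 4 * tc4 c)) (C (lam ^ 6 * tc6 c)) (X : K[X]) := by
    rw [hF]; ring
  rw [hfac] at key
  exact key.of_mul_right

/-- **Separability of the Klein form** `Fk(a, b, X)` over an algebraically closed field of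
characteristic `0` (more generally: `2, 3, 5 ≠ 0`), for `a³ ≠ b²`. -/
theorem separable_Fk [IsAlgClosed K] (h2 : (2 : K) ≠ 0) (h3 : (3 : K) ≠ 0) (h5 : (5 : K) ≠ 0)
    (a b : K) (hΔ : a ^ 3 - b ^ 2 ≠ 0) :
    (Fk (C a) (C b) (X : K[X])).Separable := by
  obtain ⟨c, lam, hlam, hc, hcc, h4, h6⟩ :=
    Fermat.Agent.S52.H890.exists_tate_params h2 h3 h5 a b hΔ
  obtain ⟨s, hs⟩ := IsAlgClosed.exists_pow_nat_eq (5 : K) (n := 2) (by norm_num)
  rw [tc4_eq_H5] at h4
  rw [tc6_eq_T5] at h6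
  rw [h4, h6]
  exact separable_Fk_tate h2 h3 h5 hlam hc hcc hs

end closed

end Fermat.Agent.S52.B3.H240
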