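import Fermat.Agent.S52.B3.Statement
import Fermat.Agent.S52.H396.NoRoot
import Fermat.Agent.S52.B3.H240.Main

/-!
# S52 / B3n-fam: `NoPolyRoot` for the explicit 5-congruent family (helper240)

For integers `c₄, c₆` with `c₄³ ≠ c₆²` let
`famC4 c₄ c₆ = C4 (C c₄) (C c₆) X`, `famC6 c₄ c₆ = C6 (C c₄) (C c₆) X ∈ ℤ[X]`
(helper952's family `Fermat.Agent.S52.Fam`, evaluated in `ℤ[X]`).  Then

* `noPolyRoot_fam : NoPolyRoot (famA (famC4 c₄ c₆)) (famB (famC6 c₄ c₆))`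
  (the hypothesis of `B3Goal`, frozen interface of helper60), and
* `natDegree_famC4_le`, `natDegree_famC6_le`, `famC4_coeff_zero`, `famC6_coeff_zero`
  (the remaining hypotheses of `B3Goal`).

Ingredients: `separable_Fk` (this directory), syzygy (helper952), `no_poly_root` (helper396),
and the arithmetic fact that `91125 x² − 193536 x y + 102400 y²` is anisotropic over `ℚ`
(its discriminant is `11 · 6912²`).
-/

set_option autoImplicit false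

namespace Fermat.Agent.S52.B3.H240

open Polynomial Fermat.Agent.S52.Fam

/-- `C4` of the family as a polynomial in `τ = X` over `ℤ`. -/
noncomputable def famC4 (c₄ c₆ : ℤ) : ℤ[X] := C4 (C c₄) (C c₆) X

/-- `C6` of the family as a polynomial in `τ = X` over `ℤ`. -/
noncomputable def famC6 (c₄ c₆ : ℤ) : ℤ[X] := C6 (C c₄) (C c₆) X

/-- The Klein form of the family as a polynomial in `τ = X` over `ℤ`. -/
noncomputable def famF (c₄ c₆ : ℤ) : ℤ[X] := Fk (C c₄) (C c₆) X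

section maps

variable (c₄ c₆ : ℤ)

theorem famC4_map : (famC4 c₄ c₆).map (Int.castRingHom ℚ) = C4 (C (c₄ : ℚ)) (C (c₆ : ℚ)) X := by
  have := map_C4 (mapRingHom (Int.castRingHom ℚ)) (C c₄) (C c₆) X
  simpa [famC4] using this

theorem famC6_map : (famC6 c₄ c₆).map (Int.castRingHom ℚ) = C6 (C (c₄ : ℚ)) (C (c₆ : ℚ)) X := by
  have := map_C6 (mapRingHom (Int.castRingHom ℚ)) (C c₄) (C c₆) X
  simpa [famC6] using this

theorem famF_map : (famF c₄ c₆).map (Int.castRingHom ℚ) = Fk (C (c₄ : ℚ)) (C (c₆ : ℚ)) X := by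
  have := map_Fk (mapRingHom (Int.castRingHom ℚ)) (C c₄) (C c₆) X
  simpa [famF] using this

end maps

/-! ### Squarefreeness of the Klein form over `ℚ` -/

theorem separable_famF (c₄ c₆ : ℤ) (h : c₄ ^ 3 ≠ c₆ ^ 2) :
    ((famF c₄ c₆).map (Int.castRingHom ℚ)).Separable := by
  rw [famF_map]
  set K := AlgebraicClosure ℚ
  have hmap : (Fk (C (c₄ : ℚ)) (C (c₆ : ℚ)) (X : ℚ[X])).map (algebraMap ℚ K)
      = Fk (C (algebraMap ℚ K (c₄ : ℚ))) (C (algebraMap ℚ K (c₆ : ℚ))) (X : K[X]) := by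
    have := map_Fk (mapRingHom (algebraMap ℚ K)) (C (c₄ : ℚ)) (C (c₆ : ℚ)) X
    simp only [coe_mapRingHom, map_C, map_X] at this
    exact this
  have hΔ : (algebraMap ℚ K (c₄ : ℚ)) ^ 3 - (algebraMap ℚ K (c₆ : ℚ)) ^ 2 ≠ 0 := by
    intro h0
    apply h
    have h1 : algebraMap ℚ K ((c₄ : ℚ) ^ 3 - (c₆ : ℚ) ^ 2) = 0 := by
      rw [map_sub, map_pow, map_pow]; exact h0
    have h2 : (c₄ : ℚ) ^ 3 - (c₆ : ℚ) ^ 2 = 0 :=
      (map_eq_zero_iff _ (algebraMap ℚ K).injective).mp h1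
    have h3 : (c₄ : ℚ) ^ 3 = (c₆ : ℚ) ^ 2 := sub_eq_zero.mp h2
    exact_mod_cast h3
  have hsep := separable_Fk (K := K) (by norm_num) (by norm_num) (by norm_num) _ _ hΔ
  rw [← hmap] at hsep
  exact (separable_map (algebraMap ℚ K)).mp hsep

theorem squarefree_famF (c₄ c₆ : ℤ) (h : c₄ ^ 3 ≠ c₆ ^ 2) :
    Squarefree ((famF c₄ c₆).map (Int.castRingHom ℚ)) :=
  (separable_famF c₄ c₆ h).squarefree

/-! ### The degree of the Klein form over `ℚ` -/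

/-- `Z² = 11 W²` has only the trivial solution in integers. -/
theorem eq_zero_of_sq_eq_eleven_mul_sq {Z W : ℤ} (h : Z ^ 2 = 11 * W ^ 2) : W = 0 := by
  by_contra hW
  have hirr : Irrational (√(11 : ℕ)) := Nat.Prime.irrational_sqrt (by norm_num)
  apply hirr
  refine ⟨|(Z : ℚ) / W|, ?_⟩
  have hWR : (W : ℝ) ≠ 0 := by exact_mod_cast hW
  have hR : (Z : ℝ) ^ 2 = 11 * (W : ℝ) ^ 2 := by exact_mod_cast h
  have hsq : (|(Z : ℝ) / W|) ^ 2 = 11 := by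
    rw [sq_abs, div_pow, hR]
    field_simp
  have hnn : (0 : ℝ) ≤ |(Z : ℝ) / W| := abs_nonneg _
  have : √(11 : ℝ) = |(Z : ℝ) / W| := by
    rw [← hsq, Real.sqrt_sq hnn]
  push_cast
  rw [this]

/-- The leading coefficient `Fk_12` of the Klein form does not vanish over `ℤ`. -/
theorem Fk_12_ne_zero (c₄ c₆ : ℤ) (h : c₄ ^ 3 ≠ c₆ ^ 2) : Fk_12 c₄ c₆ ≠ 0 := by
  intro h0
  simp only [Fk_12] at h0
  have key : (182250 * c₄ ^ 3 - 193536 * c₆ ^ 2) ^ 2 = 11 * (3456 * c₆ ^ 2) ^ 2 := by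
    linear_combination (4 * 91125 : ℤ) * h0
  have hW := eq_zero_of_sq_eq_eleven_mul_sq key
  have hc₆ : c₆ = 0 := by
    have : c₆ ^ 2 = 0 := by
      rcases mul_eq_zero.mp hW with h' | h'
      · norm_num at h'
      · exact h'
    exact pow_eq_zero_iff (two_ne_zero) |>.mp this
  rw [hc₆] at h0 h
  have hc₄ : c₄ = 0 := by
    have : (91125 : ℤ) * c₄ ^ 6 = 0 := by linear_combination h0
    rcases mul_eq_zero.mp this with h' | h'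
    · norm_num at h'
    · exact pow_eq_zero_iff (by norm_num) |>.mp h'
  rw [hc₄] at h
  exact h (by norm_num)

theorem famF_eq (c₄ c₆ : ℤ) : famF c₄ c₆ =
    C (Fk_0 c₄ c₆) + C (Fk_2 c₄ c₆) * X ^ 2 + C (Fk_3 c₄ c₆) * X ^ 3 + C (Fk_4 c₄ c₆) * X ^ 4
      + C (Fk_5 c₄ c₆) * X ^ 5 + C (Fk_6 c₄ c₆) * X ^ 6 + C (Fk_7 c₄ c₆) * X ^ 7
      + C (Fk_8 c₄ c₆) * X ^ 8 + C (Fk_9 c₄ c₆) * X ^ 9 + C (Fk_10 c₄ c₆) * X ^ 10
      + C (Fk_11 c₄ c₆) * X ^ 11 + C (Fk_12 c₄ c₆) * X ^ 12 := by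
  simp only [famF, Fk, Fk_0, Fk_2, Fk_3, Fk_4, Fk_5, Fk_6, Fk_7, Fk_8, Fk_9, Fk_10, Fk_11, Fk_12,
    C_add, C_sub, C_mul, C_pow, C_neg, map_ofNat, C_1]

theorem famF_coeff_twelve (c₄ c₆ : ℤ) : (famF c₄ c₆).coeff 12 = Fk_12 c₄ c₆ := by
  rw [famF_eq]
  simp [coeff_X_pow, Fk_0, coeff_one]

theorem natDegree_famF_le (c₄ c₆ : ℤ) : (famF c₄ c₆).natDegree ≤ 12 := by
  rw [famF_eq]
  compute_degree

theorem natDegree_famF_map (c₄ c₆ : ℤ) (h : c₄ ^ 3 ≠ c₆ ^ 2) :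
    ((famF c₄ c₆).map (Int.castRingHom ℚ)).natDegree = 12 := by
  apply natDegree_eq_of_le_of_coeff_ne_zero
  · exact natDegree_map_le.trans (natDegree_famF_le c₄ c₆)
  · rw [coeff_map, famF_coeff_twelve]
    simpa using Fk_12_ne_zero c₄ c₆ h

/-! ### The hypotheses of `B3Goal` for the family -/

theorem famC4_eq (c₄ c₆ : ℤ) : famC4 c₄ c₆ =
    C (C4_0 c₄ c₆) + C (C4_1 c₄ c₆) * X + C (C4_2 c₄ c₆) * X ^ 2 + C (C4_3 c₄ c₆) * X ^ 3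
      + C (C4_4 c₄ c₆) * X ^ 4 + C (C4_5 c₄ c₆) * X ^ 5 + C (C4_6 c₄ c₆) * X ^ 6
      + C (C4_7 c₄ c₆) * X ^ 7 + C (C4_8 c₄ c₆) * X ^ 8 + C (C4_9 c₄ c₆) * X ^ 9
      + C (C4_10 c₄ c₆) * X ^ 10 + C (C4_11 c₄ c₆) * X ^ 11 + C (C4_12 c₄ c₆) * X ^ 12
      + C (C4_13 c₄ c₆) * X ^ 13 + C (C4_14 c₄ c₆) * X ^ 14 + C (C4_15 c₄ c₆) * X ^ 15
      + C (C4_16 c₄ c₆) * X ^ 16 + C (C4_17 c₄ c₆) * X ^ 17 + C (C4_18 c₄ c₆) * X ^ 18
      + C (C4_19 c₄ c₆) * X ^ 19 + C (C4_20 c₄ c₆) * X ^ 20 := by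
  simp only [famC4, C4, C4_0, C4_1, C4_2, C4_3, C4_4, C4_5, C4_6, C4_7, C4_8, C4_9, C4_10,
    C4_11, C4_12, C4_13, C4_14, C4_15, C4_16, C4_17, C4_18, C4_19, C4_20,
    C_add, C_sub, C_mul, C_pow, C_neg, map_ofNat]

theorem famC6_eq (c₄ c₆ : ℤ) : famC6 c₄ c₆ =
    C (C6_0 c₄ c₆) + C (C6_1 c₄ c₆) * X + C (C6_2 c₄ c₆) * X ^ 2 + C (C6_3 c₄ c₆) * X ^ 3
      + C (C6_4 c₄ c₆) * X ^ 4 + C (C6_5 c₄ c₆) * X ^ 5 + C (C6_6 c₄ c₆) * X ^ 6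
      + C (C6_7 c₄ c₆) * X ^ 7 + C (C6_8 c₄ c₆) * X ^ 8 + C (C6_9 c₄ c₆) * X ^ 9
      + C (C6_10 c₄ c₆) * X ^ 10 + C (C6_11 c₄ c₆) * X ^ 11 + C (C6_12 c₄ c₆) * X ^ 12
      + C (C6_13 c₄ c₆) * X ^ 13 + C (C6_14 c₄ c₆) * X ^ 14 + C (C6_15 c₄ c₆) * X ^ 15
      + C (C6_16 c₄ c₆) * X ^ 16 + C (C6_17 c₄ c₆) * X ^ 17 + C (C6_18 c₄ c₆) * X ^ 18
      + C (C6_19 c₄ c₆) * X ^ 19 + C (C6_20 c₄ c₆) * X ^ 20 + C (C6_21 c₄ c₆) * X ^ 21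
      + C (C6_22 c₄ c₆) * X ^ 22 + C (C6_23 c₄ c₆) * X ^ 23 + C (C6_24 c₄ c₆) * X ^ 24
      + C (C6_25 c₄ c₆) * X ^ 25 + C (C6_26 c₄ c₆) * X ^ 26 + C (C6_27 c₄ c₆) * X ^ 27
      + C (C6_28 c₄ c₆) * X ^ 28 + C (C6_29 c₄ c₆) * X ^ 29 + C (C6_30 c₄ c₆) * X ^ 30 := by
  simp only [famC6, C6, C6_0, C6_1, C6_2, C6_3, C6_4, C6_5, C6_6, C6_7, C6_8, C6_9, C6_10,
    C6_11, C6_12, C6_13, C6_14, C6_15, C6_16, C6_17, C6_18, C6_19, C6_20, C6_21, C6_22, C6_23,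
    C6_24, C6_25, C6_26, C6_27, C6_28, C6_29, C6_30,
    C_add, C_sub, C_mul, C_pow, C_neg, map_ofNat]

theorem natDegree_famC4_le (c₄ c₆ : ℤ) : (famC4 c₄ c₆).natDegree ≤ 20 := by
  rw [famC4_eq]
  compute_degree

theorem natDegree_famC6_le (c₄ c₆ : ℤ) : (famC6 c₄ c₆).natDegree ≤ 30 := by
  rw [famC6_eq]
  compute_degree

theorem famC4_coeff_zero (c₄ c₆ : ℤ) : (famC4 c₄ c₆).coeff 0 = c₄ := by
  rw [famC4_eq]
  simp [coeff_X_pow, C4_0]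

theorem famC6_coeff_zero (c₄ c₆ : ℤ) : (famC6 c₄ c₆).coeff 0 = c₆ := by
  rw [famC6_eq]
  simp [coeff_X_pow, C6_0]

/-! ### `NoPolyRoot` for the family -/

/-- **B3n-fam**: the `ψ₃`-quartic of the explicit 5-congruent family has no root in `ℚ[τ]`. -/
theorem noPolyRoot_fam (c₄ c₆ : ℤ) (h : c₄ ^ 3 ≠ c₆ ^ 2) :
    NoPolyRoot (famA (famC4 c₄ c₆)) (famB (famC6 c₄ c₆)) := by
  intro P
  have hd₀ : (-78732 * ((c₄ : ℚ) ^ 3 - (c₆ : ℚ) ^ 2)) ≠ 0 := by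
    refine mul_ne_zero (by norm_num) ?_
    intro h0
    apply h
    have : (c₄ : ℚ) ^ 3 = (c₆ : ℚ) ^ 2 := sub_eq_zero.mp h0
    exact_mod_cast this
  have hsyz := syzygy (C (c₄ : ℚ)) (C (c₆ : ℚ)) (X : ℚ[X])
  have hD : 4 * (famA (famC4 c₄ c₆)) ^ 3 + 27 * (famB (famC6 c₄ c₆)) ^ 2
      = C (-78732 * ((c₄ : ℚ) ^ 3 - (c₆ : ℚ) ^ 2))
        * ((famF c₄ c₆).map (Int.castRingHom ℚ)) ^ 5 := by
    simp only [famA, famB, famC4_map, famC6_map, famF_map, C_mul, C_sub, C_pow, C_neg, map_ofNat]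
    linear_combination (-78732 : ℚ[X]) * hsyz
  have hdeg : 3 * (famA (famC4 c₄ c₆)).natDegree
      ≤ 5 * ((famF c₄ c₆).map (Int.castRingHom ℚ)).natDegree := by
    rw [natDegree_famF_map c₄ c₆ h]
    have h1 : (famA (famC4 c₄ c₆)).natDegree ≤ 20 := by
      unfold famA
      refine (natDegree_C_mul_le _ _).trans (natDegree_map_le.trans (natDegree_famC4_le c₄ c₆))
    omega
  have hpos : 0 < ((famF c₄ c₆).map (Int.castRingHom ℚ)).natDegree := by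
    rw [natDegree_famF_map c₄ c₆ h]; norm_num
  exact Fermat.Agent.S52.H396.no_poly_root_of_squarefree (by norm_num) (by norm_num)
    (famA (famC4 c₄ c₆)) (famB (famC6 c₄ c₆)) ((famF c₄ c₆).map (Int.castRingHom ℚ)) _ hd₀ hD
    (squarefree_famF c₄ c₆ h) hdeg hpos P

end Fermat.Agent.S52.B3.H240
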