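import Fermat.Agent.S52.B3.Main
import Fermat.Agent.S52.B3.H240.Fam

/-!
# S52 / B3 — the deliverable `familyHIT : FamilyHIT`  (squad S52/S60, helper240)

Final assembly of piece B3:

* `noPolyRootFam : NoPolyRootFam` — B3n for the explicit family (from `noPolyRoot_fam`,
  `Fermat/Agent/S52/B3/H240/Fam.lean`; the family polynomials `famC4`, `famC6` there are
  definitionally the `C4poly`, `C6poly` of helper60's `B3/Main.lean`);
* `familyHIT : FamilyHIT` — the frozen B-level interface of `B/Interfaces.lean` (helper52),
  via helper60's `familyHIT_of_noPolyRootFam` (on helper531's landed `b3Goal`).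
-/

set_option autoImplicit false

namespace Fermat.Agent.S52.B3.H240

/-- **B3n for the explicit family**: the `ψ₃`-quartic of the family has no root in `ℚ[τ]`. -/
theorem noPolyRootFam : Fermat.Agent.S52.B3.NoPolyRootFam :=
  fun c4 c6 h => noPolyRoot_fam c4 c6 h

/-- **Piece B3** (frozen interface `Fermat.Agent.S52.B.FamilyHIT`), unconditionally. -/
theorem familyHIT : Fermat.Agent.S52.B.FamilyHIT :=
  Fermat.Agent.S52.B3.familyHIT_of_noPolyRootFam noPolyRootFam

end Fermat.Agent.S52.B3.H240
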