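import Fermat.Agent.S52.B3.H240.FamilyHIT
import Fermat.Agent.S52.B.B2.H352.SwitchP
import Fermat.Agent.S52.B.B1.H170.Main

/-!
# S52 / Part B — `switch : Switch`, unconditionally  (helper240)

Assembly of the three landed B-level pieces through helper352's `switch_of_partsP`:

* B2 `integralModelP`  (helper352, `B/B2/H352/Main.lean`),
* B3 `familyHIT`       (`B3/H240/FamilyHIT.lean`),
* B1 `torsionMap`      (helper170, `B/B1/H170/Main.lean`).
-/

set_option autoImplicit false

namespace Fermat.Agent.S52.B3.H240

/-- **PART B** of S52 (the frozen `Fermat.Agent.S52.Switch` of `Top.lean`). -/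
theorem switch : Fermat.Agent.S52.Switch :=
  Fermat.Agent.S52.B.B2.H352.switch_of_partsP Fermat.Agent.S52.B.B2.H352.integralModelP
    familyHIT Fermat.Agent.S52.B.B1.H170.torsionMap

end Fermat.Agent.S52.B3.H240
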